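import Mathlib

/-!
# Brooks's theorem

A connected graph of largest degree `k`, neither complete nor an odd cycle, takes `k` colours
(Zając's proof: induction along a longest path).
-/

set_option autoImplicit false

noncomputable section

namespace FA.GraphClassics

open Finset Classical

variable {V : Type*} [Fintype V] {G : SimpleGraph V} {k : ℕ}

/-- `f` is proper on `S`. -/
def ProperOn (G : SimpleGraph V) (S : Finset V) (f : V → Fin k) : Prop :=
  ∀ u ∈ S, ∀ v ∈ S, G.Adj u v → f u ≠ f v

/-- A point of `S` can take a colour: a neighbour is not yet coloured, or two share a colour, or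
there are few neighbours. -/
def Spare (G : SimpleGraph V) (k : ℕ) (S : Finset V) (f : V → Fin k) (v : V) : Prop :=
  (G.neighborFinset v).card < k ∨ (∃ w, G.Adj v w ∧ w ∉ S) ∨
    ∃ a ∈ S, ∃ b ∈ S, a ≠ b ∧ G.Adj v a ∧ G.Adj v b ∧ f a = f b

lemma extend_point (hk : ∀ v, (G.neighborFinset v).card ≤ k) {S : Finset V} {f : V → Fin k}
    (hf : ProperOn G S f) {v : V} (hv : v ∉ S) (hsp : Spare G k S f v) :
    ∃ g : V → Fin k, ProperOn G (insert v S) g ∧ ∀ u ∈ S, g u = f u := by
  set T := (G.neighborFinset v).filter fun u => u ∈ S with hT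
  have hlt : (T.image f).card < k := by
    rcases hsp with h | ⟨w, hw, hwS⟩ | ⟨a, ha, b, hb, hne, hva, hvb, he⟩
    · exact lt_of_le_of_lt (card_image_le.trans (card_filter_le _ _)) h
    · refine lt_of_le_of_lt card_image_le (lt_of_lt_of_le (card_lt_card ?_) (hk v))
      exact ⟨filter_subset _ _, fun hsub =>
        hwS (mem_filter.1 (hsub ((G.mem_neighborFinset _ _).2 hw))).2⟩
    · have haT : a ∈ T := mem_filter.2 ⟨(G.mem_neighborFinset _ _).2 hva, ha⟩
      have hbT : b ∈ T := mem_filter.2 ⟨(G.mem_neighborFinset _ _).2 hvb, hb⟩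
      have hsub : T.image f ⊆ (T.erase a).image f := by
        intro c hc
        obtain ⟨u, hu, rfl⟩ := mem_image.1 hc
        by_cases hua : u = a
        · exact mem_image.2 ⟨b, mem_erase.2 ⟨hne.symm, hbT⟩, by rw [hua, he]⟩
        · exact mem_image.2 ⟨u, mem_erase.2 ⟨hua, hu⟩, rfl⟩
      refine lt_of_le_of_lt ((card_le_card hsub).trans card_image_le) ?_
      rw [card_erase_of_mem haT]
      have : T.card ≤ k := (card_filter_le _ _).trans (hk v)
      have : 0 < T.card := card_pos.2 ⟨a, haT⟩
      omega
  obtain ⟨c, -, hc⟩ := exists_mem_notMem_of_card_lt_card (s := T.image f) (t := (univ : Finset (Fin k)))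
    (by rwa [card_univ, Fintype.card_fin])
  refine ⟨Function.update f v c, ?_, fun u hu => Function.update_of_ne (show u ≠ v from fun h => hv (h ▸ hu)) _ _⟩
  intro a ha b hb hab
  rcases mem_insert.1 ha with rfl | ha' <;> rcases mem_insert.1 hb with hb' | hb'
  · exact absurd hb' hab.ne'
  · rw [Function.update_self, Function.update_of_ne hab.ne']
    exact fun he => hc (mem_image.2 ⟨b, mem_filter.2 ⟨(G.mem_neighborFinset _ _).2 hab, hb'⟩, he.symm⟩)
  · subst hb'
    rw [Function.update_self, Function.update_of_ne hab.ne]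
    exact fun he => hc (mem_image.2 ⟨a, mem_filter.2 ⟨(G.mem_neighborFinset _ _).2 hab.symm, ha'⟩, he⟩)
  · rw [Function.update_of_ne (show a ≠ v from fun h => hv (h ▸ ha')),
      Function.update_of_ne (show b ≠ v from fun h => hv (h ▸ hb'))]
    exact hf a ha' b hb' hab

/-- Colouring greedily along a chain. -/
lemma extend_chain (hk : ∀ v, (G.neighborFinset v).card ≤ k) :
    ∀ (L : List V) (hL : L ≠ []) (S : Finset V) (f : V → Fin k), ProperOn G S f → L.Nodup →
      L.IsChain G.Adj → (∀ x ∈ L, x ∉ S) →
      ((∃ w, G.Adj (L.getLast hL) w ∧ w ∉ S ∧ w ∉ L) ∨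
        ∃ a ∈ S, ∃ b ∈ S, a ≠ b ∧ G.Adj (L.getLast hL) a ∧ G.Adj (L.getLast hL) b ∧ f a = f b) →
      ∃ g : V → Fin k, ProperOn G (S ∪ L.toFinset) g ∧ ∀ u ∈ S, g u = f u := by
  intro L
  induction L with
  | nil => intro hL; exact absurd rfl hL
  | cons x L ih =>
    intro hL S f hf hnd hch hout hlast
    have hx : x ∉ S := hout x (by simp)
    cases L with
    | nil =>
      have hsp : Spare G k S f x := by
        rcases hlast with ⟨w, hw, hwS, -⟩ | h
        · exact Or.inr (Or.inl ⟨w, hw, hwS⟩)
        · exact Or.inr (Or.inr h)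
      obtain ⟨g, hg, hgS⟩ := extend_point hk hf hx hsp
      refine ⟨g, ?_, hgS⟩
      rw [show S ∪ [x].toFinset = insert x S by ext; simp]
      exact hg
    | cons y L =>
      obtain ⟨hxy, hch'⟩ := List.isChain_cons_cons.1 hch
      obtain ⟨hxn, hnd'⟩ := List.nodup_cons.1 hnd
      obtain ⟨g, hg, hgS⟩ := extend_point hk hf hx
        (Or.inr (Or.inl ⟨y, hxy, hout y (by simp)⟩))
      have hlast' : (∃ w, G.Adj ((y :: L).getLast (by simp)) w ∧ w ∉ insert x S ∧ w ∉ y :: L) ∨
          ∃ a ∈ insert x S, ∃ b ∈ insert x S, a ≠ b ∧ G.Adj ((y :: L).getLast (by simp)) a ∧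
            G.Adj ((y :: L).getLast (by simp)) b ∧ g a = g b := by
        rw [List.getLast_cons (by simp)] at hlast
        rcases hlast with ⟨w, hw, hwS, hwL⟩ | ⟨a, ha, b, hb, hne, h1, h2, he⟩
        · refine Or.inl ⟨w, hw, fun h => ?_, fun h => hwL (List.mem_cons_of_mem _ h)⟩
          rcases mem_insert.1 h with rfl | h
          · exact hwL (by simp)
          · exact hwS h
        · exact Or.inr ⟨a, mem_insert_of_mem ha, b, mem_insert_of_mem hb, hne, h1, h2,
            by rw [hgS a ha, hgS b hb, he]⟩
      obtain ⟨g', hg', hgS'⟩ := ih (by simp) (insert x S) g hg hnd' hch' (fun z hz h => by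
        rcases mem_insert.1 h with rfl | h
        · exact hxn hz
        · exact hout z (List.mem_cons_of_mem _ hz) h) hlast'
      refine ⟨g', ?_, fun u hu => by rw [hgS' u (mem_insert_of_mem hu), hgS u hu]⟩
      rw [show S ∪ (x :: y :: L).toFinset = insert x S ∪ (y :: L).toFinset by ext; simp; tauto]
      exact hg'

/-- A chain grows until its last point has all its neighbours on it. -/
lemma exists_long_chain {W : Finset V} {L₀ : List V} (h0 : L₀ ≠ []) (hnd : L₀.Nodup)
    (hch : L₀.IsChain G.Adj) (hsub : ∀ x ∈ L₀, x ∈ W) :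
    ∃ L : List V, ∃ hL : L₀ ++ L ≠ [], (L₀ ++ L).Nodup ∧ (L₀ ++ L).IsChain G.Adj ∧
      (∀ x ∈ L₀ ++ L, x ∈ W) ∧ ∀ w ∈ W, G.Adj ((L₀ ++ L).getLast hL) w → w ∈ L₀ ++ L := by
  have key : ∀ (m : ℕ) (L : List V), (L₀ ++ L).Nodup → (L₀ ++ L).IsChain G.Adj →
      (∀ x ∈ L₀ ++ L, x ∈ W) → Fintype.card V - (L₀ ++ L).length = m →
      ∃ L : List V, ∃ hL : L₀ ++ L ≠ [], (L₀ ++ L).Nodup ∧ (L₀ ++ L).IsChain G.Adj ∧
        (∀ x ∈ L₀ ++ L, x ∈ W) ∧ ∀ w ∈ W, G.Adj ((L₀ ++ L).getLast hL) w → w ∈ L₀ ++ L := by
    intro m
    induction m using Nat.strong_induction_on with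
    | _ m ih =>
      intro L h1 h2 h3 hm
      have hL : L₀ ++ L ≠ [] := by simp [h0]
      by_cases hend : ∀ w ∈ W, G.Adj ((L₀ ++ L).getLast hL) w → w ∈ L₀ ++ L
      · exact ⟨L, hL, h1, h2, h3, hend⟩
      push Not at hend
      obtain ⟨w, hwW, hadj, hwn⟩ := hend
      have h1' : (L₀ ++ (L ++ [w])).Nodup := by
        rw [← List.append_assoc, List.nodup_append]
        exact ⟨h1, List.nodup_singleton w, fun a ha b hb => by
          rw [List.mem_singleton] at hb; subst hb; exact fun he => hwn (he ▸ ha)⟩
      have hlen : (L₀ ++ L).length < Fintype.card V := by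
        have := h1'.length_le_card
        simp only [List.length_append, List.length_singleton] at this ⊢
        omega
      refine ih _ ?_ (L ++ [w]) h1' ?_ ?_ rfl
      · simp only [List.length_append, List.length_singleton] at hm hlen ⊢
        omega
      · rw [← List.append_assoc]
        refine h2.append (List.isChain_singleton w) fun x hx y hy => ?_
        rw [List.getLast?_eq_some_getLast hL] at hx
        simp at hx hy
        subst hy
        rw [← hx]
        exact hadj
      · intro x hx
        simp only [List.mem_append, List.mem_singleton] at hx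
        rcases hx with hx | hx | rfl
        · exact h3 x (List.mem_append_left _ hx)
        · exact h3 x (List.mem_append_right _ hx)
        · exact hwW
  exact key _ [] (by simpa using hnd) (by simpa using hch) (by simpa using hsub) rfl

/-- Brooks's theorem for `k ≥ 3`. -/
lemma brooks_of_three_le (hk : ∀ v, (G.neighborFinset v).card ≤ k) (h3 : 3 ≤ k)
    (hfree : G.CliqueFree (k + 1)) : ∀ W : Finset V, ∃ f : V → Fin k, ProperOn G W f := by
  intro W
  induction W using Finset.strongInduction with
  | H W IH =>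
    rcases W.eq_empty_or_nonempty with rfl | ⟨v, hv⟩
    · exact ⟨fun _ => ⟨0, by omega⟩, fun u hu => absurd hu (notMem_empty u)⟩
    by_cases hsimple : ∃ v ∈ W, (G.neighborFinset v).card < k ∨ ∃ w, G.Adj v w ∧ w ∉ W
    · obtain ⟨v, hv, h⟩ := hsimple
      obtain ⟨f, hf⟩ := IH _ (erase_ssubset hv)
      obtain ⟨g, hg, -⟩ := extend_point hk hf (notMem_erase v W) (h.imp id fun ⟨w, hw, hwW⟩ =>
        Or.inl ⟨w, hw, fun hh => hwW (mem_erase.1 hh).2⟩)
      rw [insert_erase hv] at hg
      exact ⟨g, hg⟩
    simp only [not_exists, not_and, not_or, not_lt, not_not] at hsimple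
    -- two neighbours of `v` that are not adjacent
    have hcardv : (G.neighborFinset v).card = k := le_antisymm (hk v) (hsimple v hv).1
    obtain ⟨x, hx, y, hy, hxy, hnadj⟩ : ∃ x, G.Adj v x ∧ ∃ y, G.Adj v y ∧ x ≠ y ∧ ¬G.Adj x y := by
      by_contra hcon
      push Not at hcon
      refine hfree (insert v (G.neighborFinset v)) ⟨?_, ?_⟩
      · rw [coe_insert, SimpleGraph.isClique_insert]
        refine ⟨fun a ha b hb hne => hcon a ((G.mem_neighborFinset _ _).1 ha) b
          ((G.mem_neighborFinset _ _).1 hb) hne, fun b hb _ => (G.mem_neighborFinset _ _).1 hb⟩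
      · rw [card_insert_of_notMem (by simp), hcardv]
    have hxW := (hsimple v hv).2 x hx
    have hyW := (hsimple v hv).2 y hy
    obtain ⟨R, hP, hnd, hch, hsub, hend⟩ := exists_long_chain (G := G) (W := W) (L₀ := [x, v, y])
      (by simp) (by simp [hxy, hx.ne', hy.ne]) (by simp [hx.symm, hy]) (by simp [hv, hxW, hyW])
    set P := [x, v, y] ++ R with hPdef
    set last := P.getLast hP with hlastdef
    by_cases hall : ∀ w ∈ W, w ∈ P
    · -- the path covers `W`
      obtain ⟨z, hz, hzx, hzy⟩ : ∃ z, G.Adj v z ∧ z ≠ x ∧ z ≠ y := by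
        by_contra hcon
        have hsub2 : G.neighborFinset v ⊆ {x, y} := by
          intro z hz
          by_contra hz'
          simp only [mem_insert, mem_singleton, not_or] at hz'
          exact hcon ⟨z, (G.mem_neighborFinset _ _).1 hz, hz'.1, hz'.2⟩
        have := (card_le_card hsub2).trans Finset.card_le_two
        omega
      have hzR : z ∈ R := by
        have := hall z ((hsimple v hv).2 z hz)
        simp [hPdef, hzx, hzy, hz.ne'] at this
        exact this
      obtain ⟨A, B, rfl⟩ := List.append_of_mem hzR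
      set c : Fin k := ⟨0, by omega⟩
      have hbase : ProperOn G {x, y} fun _ => c := by
        intro a ha b hb hab
        simp only [mem_insert, mem_singleton] at ha hb
        rcases ha with rfl | rfl <;> rcases hb with rfl | rfl
        · exact absurd hab (G.irrefl)
        · exact absurd hab hnadj
        · exact absurd hab.symm hnadj
        · exact absurd hab (G.irrefl)
      simp only [hPdef, List.cons_append, List.nil_append, List.nodup_cons, List.nodup_append,
        List.mem_cons, List.mem_append, not_or] at hnd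
      obtain ⟨⟨hxv, hxy', hxA, hxz, hxB⟩, ⟨hvy, hvA, hvz, hvB⟩, ⟨hyA, hyz, hyB⟩, hAnd,
        ⟨hzB, hBnd⟩, hAB⟩ := hnd
      have hchR : (A ++ z :: B).IsChain G.Adj := hch.right_of_append
      obtain ⟨f1, hf1, hf1S⟩ : ∃ f1 : V → Fin k, ProperOn G ({x, y} ∪ A.toFinset) f1 ∧
          ∀ u ∈ ({x, y} : Finset V), f1 u = c := by
        rcases eq_or_ne A [] with rfl | hA
        · exact ⟨fun _ => c, by simpa using hbase, fun _ _ => rfl⟩
        · refine extend_chain hk A hA {x, y} (fun _ => c) hbase hAnd hchR.left_of_append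
            (fun a ha => by
              simp only [mem_insert, mem_singleton, not_or]
              exact ⟨fun h => hxA (h ▸ ha), fun h => hyA (h ▸ ha)⟩) (Or.inl ⟨z, ?_, ?_, ?_⟩)
          · exact hchR.rel_getLast_head_of_append hA (by simp)
          · simp [Ne.symm hxz, Ne.symm hyz]
          · exact fun h => hAB z h z (Or.inl rfl) rfl
      set L2 := B.reverse ++ [z, v] with hL2
      obtain ⟨g, hg, -⟩ := extend_chain hk L2 (by simp [hL2]) _ f1 hf1 (by
        rw [hL2, List.nodup_append]
        refine ⟨List.nodup_reverse.2 hBnd, by simp [hz.ne'], fun a ha b hb he => ?_⟩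
        subst he
        simp only [List.mem_reverse] at ha
        simp only [List.mem_cons, List.not_mem_nil, or_false] at hb
        rcases hb with rfl | rfl
        · exact hzB ha
        · exact hvB ha) (by
        rw [hL2, show B.reverse ++ [z, v] = (z :: B).reverse ++ [v] by simp]
        refine (List.isChain_reverse.2 (hchR.right_of_append.imp fun a b h => h.symm)).append
          (List.isChain_singleton v) fun a ha b hb => ?_
        simp at ha hb
        subst ha hb
        exact hz.symm) (by
        intro a ha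
        simp only [hL2, List.mem_append, List.mem_reverse, List.mem_cons, List.not_mem_nil,
          or_false] at ha
        simp only [mem_union, mem_insert, mem_singleton, List.mem_toFinset, not_or]
        rcases ha with ha | rfl | rfl
        · exact ⟨⟨fun h => hxB (h ▸ ha), fun h => hyB (h ▸ ha)⟩,
            fun h => hAB a h a (Or.inr ha) rfl⟩
        · exact ⟨⟨Ne.symm hxz, Ne.symm hyz⟩, fun h => hAB a h a (Or.inl rfl) rfl⟩
        · exact ⟨⟨hx.ne, hy.ne⟩, hvA⟩) (by
        refine Or.inr ⟨x, by simp, y, by simp, hxy, ?_, ?_, ?_⟩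
        · simp [hL2, hx]
        · simp [hL2, hy]
        · rw [hf1S x (by simp), hf1S y (by simp)])
      refine ⟨g, fun a ha b hb hab => hg a ?_ b ?_ hab⟩
      · have := hall a ha
        simp [hPdef, hL2] at this ⊢
        tauto
      · have := hall b hb
        simp [hPdef, hL2] at this ⊢
        tauto
    -- a cycle with all neighbours of its last point
    push Not at hall
    obtain ⟨w₀, hw₀W, hw₀P⟩ := hall
    have hlastW : last ∈ W := hsub _ (List.getLast_mem hP)
    obtain ⟨n₀, hn₀⟩ := card_pos.1 (by have := (hsimple last hlastW).1; omega :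
      0 < (G.neighborFinset last).card)
    obtain ⟨A, C, hC, hPAC, hhead, hA⟩ : ∃ (A C : List V) (hC : C ≠ []), P = A ++ C ∧
        G.Adj last (C.head hC) ∧ ∀ a ∈ A, ¬G.Adj last a := by
      have hex : ∀ L : List V, (∃ a ∈ L, G.Adj last a) → ∃ (A C : List V) (hC : C ≠ []),
          L = A ++ C ∧ G.Adj last (C.head hC) ∧ ∀ a ∈ A, ¬G.Adj last a := by
        intro L
        induction L with
        | nil => simp
        | cons a L ih =>
          intro h
          by_cases ha : G.Adj last a
          · exact ⟨[], a :: L, by simp, rfl, ha, by simp⟩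
          · obtain ⟨A, C, hC, he, hh, hA⟩ := ih (by
              obtain ⟨b, hb, hab⟩ := h
              rcases List.mem_cons.1 hb with rfl | hb
              · exact absurd hab ha
              · exact ⟨b, hb, hab⟩)
            exact ⟨a :: A, C, hC, by rw [he, List.cons_append], hh, by simpa [ha] using hA⟩
      exact hex P ⟨n₀, hend n₀ ((hsimple last hlastW).2 n₀ ((G.mem_neighborFinset _ _).1 hn₀))
        ((G.mem_neighborFinset _ _).1 hn₀), (G.mem_neighborFinset _ _).1 hn₀⟩
    have hlastC : C.getLast hC = last := by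
      simp only [hlastdef, hPAC, List.getLast_append_of_ne_nil _ hC]
    have hnbrC : ∀ w, G.Adj last w → w ∈ C := by
      intro w hw
      have := hend w ((hsimple last hlastW).2 w hw) hw
      rw [← hPdef, hPAC, List.mem_append] at this
      exact this.resolve_left fun h => hA w h hw
    have hCnd : C.Nodup := (hPAC ▸ hnd).of_append_right
    have hCch : C.IsChain G.Adj := (hPAC ▸ hch).right_of_append
    have hCW : C.toFinset ⊆ W := fun a ha =>
      hsub a (by rw [hPAC]; exact List.mem_append_right _ (List.mem_toFinset.1 ha))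
    have hCss : C.toFinset ⊂ W := ⟨hCW, fun h => hw₀P (by
      rw [hPAC]; exact List.mem_append_right _ (List.mem_toFinset.1 (h hw₀W)))⟩
    obtain ⟨f, hf⟩ := IH (W \ C.toFinset) (sdiff_ssubset hCW
      ⟨C.head hC, List.mem_toFinset.2 (List.head_mem hC)⟩)
    by_cases hlink : ∃ u ∈ C, ∃ w, G.Adj u w ∧ w ∈ W \ C.toFinset
    swap
    · push Not at hlink
      obtain ⟨f', hf'⟩ := IH _ hCss
      refine ⟨fun a => if a ∈ C.toFinset then f' a else f a, fun a ha b hb hab => ?_⟩
      by_cases hac : a ∈ C.toFinset <;> by_cases hbc : b ∈ C.toFinset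
      · simp only [if_pos hac, if_pos hbc]; exact hf' a hac b hbc hab
      · exact absurd (mem_sdiff.2 ⟨hb, hbc⟩) (hlink a (List.mem_toFinset.1 hac) b hab)
      · exact absurd (mem_sdiff.2 ⟨ha, hac⟩) (hlink b (List.mem_toFinset.1 hbc) a hab.symm)
      · simp only [if_neg hac, if_neg hbc]
        exact hf a (mem_sdiff.2 ⟨ha, hac⟩) b (mem_sdiff.2 ⟨hb, hbc⟩) hab
    -- two consecutive points of the cycle, only the first one linked to the outside
    have hlastno : ¬∃ w, G.Adj (C.getLast hC) w ∧ w ∈ W \ C.toFinset := by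
      rintro ⟨w, hw, hwout⟩
      exact (mem_sdiff.1 hwout).2 (List.mem_toFinset.2 (hnbrC w (hlastC ▸ hw)))
    obtain ⟨A', u, u', B', hCsplit, ⟨w, huw, hwout⟩, hu'⟩ : ∃ (A' : List V) (u u' : V) (B' : List V),
        C = A' ++ u :: u' :: B' ∧ (∃ w, G.Adj u w ∧ w ∈ W \ C.toFinset) ∧
          ¬∃ w, G.Adj u' w ∧ w ∈ W \ C.toFinset := by
      have hex : ∀ (Q : V → Prop) (L : List V), (∃ a ∈ L, Q a) → (∀ h : L ≠ [], ¬Q (L.getLast h)) →
          ∃ (A' : List V) (u u' : V) (B' : List V), L = A' ++ u :: u' :: B' ∧ Q u ∧ ¬Q u' := by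
        intro Q L
        induction L with
        | nil => simp
        | cons a L ih =>
          intro h hl
          cases L with
          | nil =>
            obtain ⟨b, hb, hQ⟩ := h
            rw [List.mem_singleton] at hb
            exact absurd (hb ▸ hQ) (hl (by simp))
          | cons b L =>
            by_cases hab : Q a ∧ ¬Q b
            · exact ⟨[], a, b, L, rfl, hab.1, hab.2⟩
            · have hnext : ∃ c ∈ b :: L, Q c := by
                obtain ⟨c, hc, hQ⟩ := h
                rcases List.mem_cons.1 hc with rfl | hc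
                · exact ⟨b, by simp, by_contra fun hb => hab ⟨hQ, hb⟩⟩
                · exact ⟨c, hc, hQ⟩
              obtain ⟨A', u, u', B', he, h1, h2⟩ := ih hnext fun hne => by
                have := hl (by simp); rwa [List.getLast_cons hne] at this
              exact ⟨a :: A', u, u', B', by rw [he, List.cons_append], h1, h2⟩
      exact hex _ C hlink fun _ => hlastno
    have hu'C : u' ∉ W \ C.toFinset := fun h => (mem_sdiff.1 h).2 (by simp [hCsplit])
    have hwC : w ∉ C.toFinset := (mem_sdiff.1 hwout).2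
    set S := insert u' (W \ C.toFinset) with hS
    set f' := Function.update f u' (f w) with hf'
    have hfS : ProperOn G S f' := by
      intro a ha b hb hab
      rcases mem_insert.1 ha with rfl | ha' <;> rcases mem_insert.1 hb with hb' | hb'
      · exact absurd hb' hab.ne'
      · exact absurd ⟨b, hab, hb'⟩ hu'
      · exact absurd ⟨a, hb' ▸ hab.symm, ha'⟩ hu'
      · rw [hf', Function.update_of_ne (show a ≠ u' from fun h => hu'C (h ▸ ha')),
          Function.update_of_ne (show b ≠ u' from fun h => hu'C (h ▸ hb'))]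
        exact hf a ha' b hb' hab
    have hndC := hCnd
    have hchC := hCch
    rw [hCsplit] at hndC hchC
    simp only [List.nodup_append, List.nodup_cons, List.mem_cons, not_or] at hndC
    obtain ⟨hA'nd, ⟨⟨huu', huB⟩, hu'B, hB'nd⟩, hdis⟩ := hndC
    have hC' : A' ++ [u] ≠ [] := by simp
    have hch1 : (A' ++ [u]).IsChain G.Adj := by
      rw [show A' ++ u :: u' :: B' = (A' ++ [u]) ++ u' :: B' by simp] at hchC
      exact hchC.left_of_append
    obtain ⟨g, hg, -⟩ := extend_chain hk (B' ++ (A' ++ [u])) (by simp) S f' hfS (by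
      rw [List.nodup_append]
      refine ⟨hB'nd, List.nodup_append.2 ⟨hA'nd, by simp, fun a ha b hb => ?_⟩, fun a ha b hb => ?_⟩
      · rw [List.mem_singleton] at hb; subst hb; exact hdis a ha b (Or.inl rfl)
      · simp only [List.mem_append, List.mem_singleton] at hb
        rcases hb with hb | rfl
        · exact fun he => hdis b hb a (Or.inr (Or.inr ha)) he.symm
        · exact fun he => huB (he ▸ ha)) (by
      refine (List.IsChain.right_of_append (l₁ := A' ++ [u, u']) (by simpa using hchC)).append hch1
        fun a ha b hb => ?_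
      have hBne : B' ≠ [] := fun he => by simp [he] at ha
      rw [List.getLast?_eq_some_getLast hBne] at ha
      rw [List.head?_eq_some_head hC'] at hb
      simp only [Option.mem_def, Option.some.injEq] at ha hb
      have e1 : a = last := by
        rw [← hlastC, ← ha]; simp [hCsplit, hBne]
      have e2 : b = C.head hC := by
        rw [← hb]; cases A' <;> simp [hCsplit]
      rw [e1, e2]; exact hhead) (by
      intro a ha h
      have haC : a ∈ C.toFinset := by
        rw [List.mem_toFinset, hCsplit]; simp at ha ⊢; tauto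
      rcases mem_insert.1 h with rfl | h
      · simp at ha
        rcases ha with ha | ha | ha
        · exact hu'B ha
        · exact hdis a ha a (Or.inr (Or.inl rfl)) rfl
        · exact huu' ha.symm
      · exact (mem_sdiff.1 h).2 haC) (by
      refine Or.inr ⟨w, mem_insert_of_mem hwout, u', mem_insert_self _ _, ?_, ?_, ?_, ?_⟩
      · exact fun he => hwC (he ▸ (by simp [hCsplit]))
      · simpa [List.getLast_append_of_ne_nil _ hC'] using huw
      · have h' : G.Adj u u' := by
          rw [show A' ++ u :: u' :: B' = A' ++ ([u, u'] ++ B') by simp] at hchC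
          exact (List.isChain_cons_cons.1 hchC.right_of_append.left_of_append).1
        simpa [List.getLast_append_of_ne_nil _ hC'] using h'
      · simp [hf', Function.update_of_ne (fun h : w = u' => hwC (h ▸ (by simp [hCsplit])))])
    refine ⟨g, fun a ha b hb hab => hg a ?_ b ?_ hab⟩
    · by_cases hac : a ∈ C.toFinset
      · rw [List.mem_toFinset, hCsplit] at hac; simp [hS] at hac ⊢; tauto
      · exact mem_union_left _ (mem_insert_of_mem (mem_sdiff.2 ⟨ha, hac⟩))
    · by_cases hbc : b ∈ C.toFinset
      · rw [List.mem_toFinset, hCsplit] at hbc; simp [hS] at hbc ⊢; tauto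
      · exact mem_union_left _ (mem_insert_of_mem (mem_sdiff.2 ⟨hb, hbc⟩))

/-- In a connected graph a set closed under neighbours is everything. -/
lemma closed_eq_univ (hG : G.Connected) {T : Finset V} (hne : T.Nonempty)
    (hcl : ∀ a ∈ T, ∀ b, G.Adj a b → b ∈ T) : T = univ := by
  obtain ⟨a, ha⟩ := hne
  refine eq_univ_of_forall fun b => ?_
  obtain ⟨p⟩ := hG.preconnected a b
  induction p with
  | nil => exact ha
  | cons h _ ih => exact ih (hcl _ ha _ h)

/-- A connected graph with a point of small degree is easy. -/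
lemma colour_of_small_degree (hk : ∀ v, (G.neighborFinset v).card ≤ k) (hG : G.Connected) {v₀ : V}
    (hv₀ : (G.neighborFinset v₀).card < k) (W : Finset V) : ∃ f : V → Fin k, ProperOn G W f := by
  induction W using Finset.strongInduction with
  | H W IH =>
    rcases W.eq_empty_or_nonempty with rfl | hne
    · exact ⟨fun _ => ⟨0, by omega⟩, fun u hu => absurd hu (notMem_empty u)⟩
    obtain ⟨v, hv, h⟩ : ∃ v ∈ W, (G.neighborFinset v).card < k ∨ ∃ w, G.Adj v w ∧ w ∉ W := by
      by_contra hcon
      push Not at hcon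
      have hW : W = univ := closed_eq_univ hG hne fun a ha b hab => (hcon a ha).2 b hab
      have := (hcon v₀ (hW ▸ mem_univ v₀)).1
      omega
    obtain ⟨f, hf⟩ := IH _ (erase_ssubset hv)
    obtain ⟨g, hg, -⟩ := extend_point hk hf (notMem_erase v W) (h.imp id fun ⟨w, hw, hwW⟩ =>
      Or.inl ⟨w, hw, fun hh => hwW (mem_erase.1 hh).2⟩)
    rw [insert_erase hv] at hg
    exact ⟨g, hg⟩

/-- A connected graph with all degrees two and evenly many points is bipartite. -/
lemma colour_even_cycle (hG : G.Connected) (h2 : ∀ v, (G.neighborFinset v).card = 2)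
    (heven : Even (Fintype.card V)) : ∃ f : V → Fin 2, ProperOn G univ f := by
  obtain ⟨v⟩ := hG.nonempty
  obtain ⟨R, hP, hnd, hch, -, hend⟩ := exists_long_chain (G := G) (W := univ) (L₀ := [v])
    (by simp) (by simp) (by simp) (by simp)
  set P := [v] ++ R with hPdef
  set m := P.length with hm
  have hstep : ∀ (i : ℕ) (h : i + 1 < m), G.Adj P[i] P[i + 1] := fun i h =>
    List.isChain_iff_getElem.1 hch i h
  have hm0 : 0 < m := List.length_pos_iff.2 hP
  have hinj : ∀ (i j : ℕ) (hi : i < m) (hj : j < m), P[i] = P[j] → i = j := fun i j hi hj he =>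
    (hnd.getElem_inj_iff).1 he
  have hlast : P.getLast hP = P[m - 1] := List.getLast_eq_getElem hP
  rw [hlast] at hend
  have hidx : ∀ w, G.Adj P[m - 1] w → ∃ (j : ℕ) (hj : j < m), P[j] = w := fun w hw =>
    List.mem_iff_getElem.1 (hend w (mem_univ w) hw)
  have hinner : ∀ (i : ℕ) (hi0 : 0 < i) (hi : i + 1 < m) (w : V), G.Adj P[i] w →
      w = P[i - 1] ∨ w = P[i + 1] := by
    intro i hi0 hi w hw
    by_contra hcon
    rw [not_or] at hcon
    have e1 : G.Adj P[i] P[i - 1] := by
      have := (hstep (i - 1) (by omega)).symm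
      simp only [Nat.sub_add_cancel hi0] at this
      exact this
    have h3 : ({P[i - 1], P[i + 1], w} : Finset V) ⊆ G.neighborFinset P[i] := by
      intro a ha
      simp only [mem_insert, mem_singleton] at ha
      rcases ha with rfl | rfl | rfl
      · exact (G.mem_neighborFinset _ _).2 e1
      · exact (G.mem_neighborFinset _ _).2 (hstep i hi)
      · exact (G.mem_neighborFinset _ _).2 hw
    have hne : P[i - 1] ≠ P[i + 1] := fun he => by have := hinj _ _ _ _ he; omega
    have := card_le_card h3
    rw [h2, card_insert_of_notMem (by simp [hne, Ne.symm hcon.1]),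
      card_pair (Ne.symm hcon.2)] at this
    omega
  -- the last point is joined to the first
  have hclose : 3 ≤ m ∧ G.Adj P[m - 1] P[0] := by
    obtain ⟨a, b, hab, hN⟩ := card_eq_two.1 (h2 P[m - 1])
    have hmem : ∀ c, c ∈ G.neighborFinset P[m - 1] → ∃ (j : ℕ) (hj : j < m),
        P[j] = c ∧ (j + 2 = m ∨ j = 0) := by
      intro c hc
      obtain ⟨j, hj, rfl⟩ := hidx c ((G.mem_neighborFinset _ _).1 hc)
      refine ⟨j, hj, rfl, ?_⟩
      by_contra hcon
      rw [not_or] at hcon
      have hne : j ≠ m - 1 := fun he => ((G.mem_neighborFinset _ _).1 hc).ne (by simp [he])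
      rcases hinner j (by omega) (by omega) _ ((G.mem_neighborFinset _ _).1 hc).symm with h | h
      · have := hinj _ _ _ _ h; omega
      · have := hinj _ _ _ _ h; omega
    obtain ⟨i, hi, rfl, hi'⟩ := hmem a (by simp [hN])
    obtain ⟨j, hj, rfl, hj'⟩ := hmem b (by simp [hN])
    have hij : i ≠ j := fun he => hab (by simp [he])
    have hi0 := (G.mem_neighborFinset P[m - 1] P[i]).1 (by simp [hN])
    have hj0 := (G.mem_neighborFinset P[m - 1] P[j]).1 (by simp [hN])
    refine ⟨by omega, ?_⟩
    rcases hi' with hi' | hi'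
    · obtain rfl : j = 0 := by omega
      exact hj0
    · subst hi'; exact hi0
  obtain ⟨hm3, hwrap⟩ := hclose
  have hnbr : ∀ (i : ℕ) (hi : i < m) (w : V), G.Adj P[i] w →
      ∃ (j : ℕ) (hj : j < m), P[j] = w ∧
        (j = i + 1 ∨ i = j + 1 ∨ (i = 0 ∧ j = m - 1) ∨ (j = 0 ∧ i = m - 1)) := by
    intro i hi w hw
    have pick : ∀ (j k : ℕ) (hj : j < m) (hk' : k < m), j ≠ k → G.Adj P[i] P[j] → G.Adj P[i] P[k] →
        w = P[j] ∨ w = P[k] := by
      intro j k hj hk' hjk e1 e2
      by_contra hcon
      rw [not_or] at hcon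
      have h3 : ({P[j], P[k], w} : Finset V) ⊆ G.neighborFinset P[i] := by
        intro a ha
        simp only [mem_insert, mem_singleton] at ha
        rcases ha with rfl | rfl | rfl
        · exact (G.mem_neighborFinset _ _).2 e1
        · exact (G.mem_neighborFinset _ _).2 e2
        · exact (G.mem_neighborFinset _ _).2 hw
      have hne : P[j] ≠ P[k] := fun he => hjk (hinj _ _ _ _ he)
      have := card_le_card h3
      rw [h2, card_insert_of_notMem (by simp [hne, Ne.symm hcon.1]),
        card_pair (Ne.symm hcon.2)] at this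
      omega
    rcases Nat.eq_zero_or_pos i with rfl | hi0
    · rcases pick 1 (m - 1) (by omega) (by omega) (by omega) (hstep 0 (by omega)) hwrap.symm with
        h | h
      · exact ⟨1, by omega, h.symm, Or.inl rfl⟩
      · exact ⟨m - 1, by omega, h.symm, Or.inr (Or.inr (Or.inl ⟨rfl, rfl⟩))⟩
    by_cases hi1 : i + 1 < m
    · rcases hinner i hi0 hi1 w hw with h | h
      · exact ⟨i - 1, by omega, h.symm, Or.inr (Or.inl (by omega))⟩
      · exact ⟨i + 1, hi1, h.symm, Or.inl rfl⟩
    · obtain rfl : i = m - 1 := by omega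
      have e : G.Adj P[m - 1] P[m - 2] := by
        have := (hstep (m - 2) (by omega)).symm
        simp only [show m - 2 + 1 = m - 1 by omega] at this
        exact this
      rcases pick 0 (m - 2) (by omega) (by omega) (by omega) hwrap e with h | h
      · exact ⟨0, by omega, h.symm, Or.inr (Or.inr (Or.inr ⟨rfl, rfl⟩))⟩
      · exact ⟨m - 2, by omega, h.symm, Or.inr (Or.inl (by omega))⟩
  have huniv : P.toFinset = univ := by
    refine closed_eq_univ hG ⟨v, by simp [hPdef]⟩ fun a ha b hab => ?_
    obtain ⟨i, hi, rfl⟩ := List.mem_iff_getElem.1 (List.mem_toFinset.1 ha)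
    obtain ⟨j, hj, rfl, -⟩ := hnbr i hi b hab
    exact List.mem_toFinset.2 (List.getElem_mem hj)
  have hcard : m = Fintype.card V := by
    rw [hm, ← List.toFinset_card_of_nodup hnd, huniv, card_univ]
  refine ⟨fun a => ⟨P.idxOf a % 2, Nat.mod_lt _ two_pos⟩, fun a _ b _ hab he => ?_⟩
  have hamem : a ∈ P := List.mem_toFinset.1 (huniv ▸ mem_univ a)
  obtain ⟨i, hi, rfl⟩ := List.mem_iff_getElem.1 hamem
  obtain ⟨j, hj, rfl, hcases⟩ := hnbr i hi b hab
  have h4 : i % 2 = j % 2 := by
    have h5 := congrArg Fin.val he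
    simp only [hnd.idxOf_getElem] at h5
    exact h5
  obtain ⟨t, ht⟩ := hcard ▸ heven
  omega

/-- Brooks's theorem. -/
theorem brooks_aux (hG : G.Connected) (hk : ∀ v, (G.neighborFinset v).card ≤ k) (hkex : ∃ v, (G.neighborFinset v).card = k)
    (hcomplete : G ≠ ⊤)
    (hodd : ¬((∀ v, (G.neighborFinset v).card = 2) ∧ Odd (Fintype.card V))) :
    G.Colorable k := by
  suffices h : ∃ f : V → Fin k, ProperOn G univ f by
    obtain ⟨f, hf⟩ := h
    exact ⟨SimpleGraph.Coloring.mk f fun {u v} huv => hf u (mem_univ u) v (mem_univ v) huv⟩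
  by_cases hreg : ∃ v, (G.neighborFinset v).card < k
  · obtain ⟨v, hv⟩ := hreg
    exact colour_of_small_degree hk hG hv univ
  push Not at hreg
  have hdeg : ∀ v, (G.neighborFinset v).card = k := fun v => le_antisymm (hk v) (hreg v)
  have hnoclique : G.CliqueFree (k + 1) := by
    intro t ht
    apply hcomplete
    have htne : t.Nonempty := card_pos.1 (by rw [ht.card_eq]; omega)
    have hclosed : ∀ a ∈ t, ∀ b, G.Adj a b → b ∈ t := by
      intro a ha b hab
      have hsub : t.erase a = G.neighborFinset a := by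
        refine eq_of_subset_of_card_le (fun c hc => (G.mem_neighborFinset _ _).2 ?_) ?_
        · exact ht.isClique (mem_coe.2 ha) (mem_coe.2 (mem_erase.1 hc).2) (mem_erase.1 hc).1.symm
        · rw [hdeg, card_erase_of_mem ha, ht.card_eq]; omega
      exact (mem_erase.1 (hsub ▸ (G.mem_neighborFinset _ _).2 hab)).2
    have htu := closed_eq_univ hG htne hclosed
    ext a b
    simp only [SimpleGraph.top_adj]
    exact ⟨fun h => h.ne, fun h => ht.isClique (mem_coe.2 (htu ▸ mem_univ a))
      (mem_coe.2 (htu ▸ mem_univ b)) h⟩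
  match k, hk, hdeg, hnoclique with
  | 0, _, hdeg, hnc =>
    obtain ⟨v⟩ := hG.nonempty
    exact absurd (SimpleGraph.isNClique_singleton.2 rfl) (hnc {v})
  | 1, _, hdeg, hnc =>
    obtain ⟨v⟩ := hG.nonempty
    obtain ⟨w, hw⟩ := card_pos.1 (by rw [hdeg v]; omega : 0 < (G.neighborFinset v).card)
    refine absurd ⟨?_, ?_⟩ (hnc {v, w})
    · rw [coe_pair]; exact SimpleGraph.isClique_pair.2 fun _ => (G.mem_neighborFinset _ _).1 hw
    · rw [card_pair ((G.mem_neighborFinset _ _).1 hw).ne]
  | 2, _, hdeg, _ =>
    refine colour_even_cycle hG hdeg ?_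
    rw [← Nat.not_odd_iff_even]
    exact fun h => hodd ⟨hdeg, h⟩
  | (k + 3), hk, _, hnc => exact brooks_of_three_le hk (by omega) hnc univ

end FA.GraphClassics
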