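import Mathlib

/-!
# Ore's theorem on Hamilton cycles

An arrangement of the points in a cycle with fewest non-adjacent neighbours has none, as otherwise
two edges can be exchanged.
-/

set_option autoImplicit false

noncomputable section

namespace FA.GraphClassics

open Finset Classical

variable {V : Type*} (G : SimpleGraph V)

/-- One when the points are not adjacent. -/
def gap (a b : V) : ℕ := if G.Adj a b then 0 else 1

/-- The number of gaps along a list. -/
def lineGaps : List V → ℕ
  | [] => 0
  | [_] => 0
  | a :: b :: l => gap G a b + lineGaps (b :: l)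

/-- The number of gaps around a list. -/
def ringGaps : List V → ℕ
  | [] => 0
  | a :: l => lineGaps G (a :: l) + gap G ((a :: l).getLast (by simp)) a

variable {G}

lemma gap_comm (a b : V) : gap G a b = gap G b a := by simp [gap, G.adj_comm]

lemma gap_of_adj {a b : V} (h : G.Adj a b) : gap G a b = 0 := by simp [gap, h]

lemma lineGaps_append : ∀ (a : List V) (b : List V) (ha : a ≠ []) (hb : b ≠ []),
    lineGaps G (a ++ b) = lineGaps G a + lineGaps G b + gap G (a.getLast ha) (b.head hb)
  | [], _, ha, _ => absurd rfl ha
  | [x], y :: l, _, _ => by simp [lineGaps]; omega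
  | [x], [], _, hb => absurd rfl hb
  | x :: y :: l, b, _, hb => by
    have := lineGaps_append (y :: l) b (by simp) hb
    simp only [List.cons_append, lineGaps, List.getLast_cons_cons] at this ⊢
    omega

lemma lineGaps_reverse : ∀ l : List V, lineGaps G l.reverse = lineGaps G l
  | [] => rfl
  | [x] => rfl
  | x :: y :: l => by
    rw [List.reverse_cons, lineGaps_append _ _ (by simp) (by simp), lineGaps_reverse (y :: l)]
    simp only [List.getLast_reverse, List.head_cons, lineGaps, gap_comm x y]
    omega

lemma ringGaps_eq {l : List V} (hl : l ≠ []) :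
    ringGaps G l = lineGaps G l + gap G (l.getLast hl) (l.head hl) := by
  cases l with
  | nil => exact absurd rfl hl
  | cons a l => rfl

lemma isChain_of_lineGaps : ∀ {l : List V}, lineGaps G l = 0 → l.IsChain G.Adj
  | [], _ => List.isChain_nil
  | [x], _ => List.isChain_singleton x
  | x :: y :: l, h => by
    simp only [lineGaps] at h
    refine List.isChain_cons_cons.2 ⟨?_, isChain_of_lineGaps (by omega)⟩
    by_contra hn
    simp [gap, hn] at h

/-- Two edges may be exchanged around a gap. -/
lemma exists_fewer_gaps [Fintype V] (hn : 3 ≤ Fintype.card V)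
    (hore : ∀ u v, u ≠ v → ¬G.Adj u v →
      Fintype.card V ≤ (G.neighborFinset u).card + (G.neighborFinset v).card)
    (l : List V) (hnd : l.Nodup) (hlen : l.length = Fintype.card V) (hne : l ≠ [])
    (hgap : ¬G.Adj (l.getLast hne) (l.head hne)) :
    ∃ l' : List V, l'.Nodup ∧ l'.length = Fintype.card V ∧ ringGaps G l' < ringGaps G l := by
  set n := Fintype.card V with hn'
  have hbij : ∀ x : V, ∃ i, ∃ hi : i < l.length, l[i] = x := by
    intro x
    refine List.mem_iff_getElem.1 ?_
    have h1 : l.toFinset = univ := eq_univ_of_card _ (by rw [List.toFinset_card_of_nodup hnd, hlen])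
    exact List.mem_toFinset.1 (h1 ▸ mem_univ x)
  choose idx hidx hget using hbij
  have hidx_get : ∀ (i : ℕ) (hi : i < l.length), idx l[i] = i := fun i hi =>
    (hnd.getElem_inj_iff).1 (hget l[i])
  set u := l.head hne with hu
  set v := l.getLast hne with hv
  have hu0 : idx u = 0 := by rw [hu, List.head_eq_getElem, hidx_get]
  have hvl : idx v = n - 1 := by rw [hv, List.getLast_eq_getElem, hidx_get, hlen]
  have huv : u ≠ v := fun he => by rw [he] at hu0; omega
  set A := (G.neighborFinset u).image fun w => idx w - 1 with hA
  set B := (G.neighborFinset v).image idx with hB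
  have hinj : Function.Injective idx := fun x y he => by
    rw [← hget x, ← hget y]; simp only [he]
  have hpos : ∀ w, G.Adj u w → 0 < idx w := fun w hw => by
    refine Nat.pos_of_ne_zero fun h0 => hw.ne (hinj (hu0.trans h0.symm))
  have hAcard : A.card = (G.neighborFinset u).card := by
    refine card_image_of_injOn fun x hx y hy he => hinj ?_
    have := hpos x ((G.mem_neighborFinset _ _).1 hx)
    have := hpos y ((G.mem_neighborFinset _ _).1 hy)
    omega
  have hBcard : B.card = (G.neighborFinset v).card := card_image_of_injective _ hinj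
  have hsub : A ∪ B ⊆ range (n - 1) := by
    intro i hi
    rw [mem_range]
    rcases mem_union.1 hi with hi | hi
    · obtain ⟨w, hw, rfl⟩ := mem_image.1 hi
      have := hpos w ((G.mem_neighborFinset _ _).1 hw)
      have := hlen ▸ hidx w
      omega
    · obtain ⟨w, hw, rfl⟩ := mem_image.1 hi
      have h1 : idx w ≠ n - 1 := fun he =>
        ((G.mem_neighborFinset _ _).1 hw).ne (hinj (hvl.trans he.symm))
      have := hlen ▸ hidx w
      omega
  obtain ⟨i, hi⟩ : (A ∩ B).Nonempty := by
    rw [← card_pos]
    have := card_le_card hsub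
    rw [card_range] at this
    have := card_union_add_card_inter A B
    have := hore u v huv fun h => hgap h.symm
    omega
  obtain ⟨hiA, hiB⟩ := mem_inter.1 hi
  obtain ⟨w, hw, hwi⟩ := mem_image.1 hiA
  obtain ⟨z, hz, hzi⟩ := mem_image.1 hiB
  have hw' := (G.mem_neighborFinset _ _).1 hw
  have hz' := (G.mem_neighborFinset _ _).1 hz
  have hiw : idx w = i + 1 := by have := hpos w hw'; omega
  have hi1 : i + 1 < l.length := hiw ▸ hidx w
  set a := l.take (i + 1) with ha
  set b := l.drop (i + 1) with hb
  have hab : a ++ b = l := List.take_append_drop _ _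
  have hane : a ≠ [] := by
    rw [← List.length_pos_iff, ha, List.length_take]; omega
  have hbne : b ≠ [] := by
    rw [← List.length_pos_iff, hb, List.length_drop]; omega
  have hahead : a.head hane = u := by
    simp [ha, hu, List.head_take]
  have halast : a.getLast hane = z := by
    have : l[i]'(by omega) = z := by subst hzi; exact hget z
    rw [← this, List.getLast_eq_getElem]
    simp [ha, List.length_take, Nat.min_eq_left hi1.le]
  have hbhead : b.head hbne = w := by
    have : l[i + 1]'hi1 = w := by simp only [← hiw]; exact hget w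
    simp [hb, List.head_drop, this]
  have hblast : b.getLast hbne = v := by
    simp [hb, hv, List.getLast_drop]
  refine ⟨a ++ b.reverse, ?_, ?_, ?_⟩
  · exact ((List.Perm.append_left a b.reverse_perm).nodup_iff).2 (hab ▸ hnd)
  · rw [List.length_append, List.length_reverse, ← List.length_append, hab, hlen]
  · rw [ringGaps_eq hne, ringGaps_eq (by simp [hane])]
    have e1 : lineGaps G l = lineGaps G a + lineGaps G b + gap G z w := by
      conv_lhs => rw [← hab]
      rw [lineGaps_append a b hane hbne, halast, hbhead]
    rw [lineGaps_append a b.reverse hane (by simp [hbne]), lineGaps_reverse]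
    simp only [List.head_reverse, hblast, halast, List.getLast_append_of_ne_nil _ (by simp [hbne] :
      b.reverse ≠ []), List.getLast_reverse, hbhead, List.head_append_of_ne_nil hane, hahead]
    have e2 : gap G v u = 1 := by simp [gap, hgap]
    rw [gap_of_adj hz'.symm, gap_of_adj hw'.symm, e1]
    simp only [← hu, ← hv, e2]
    omega

/-- A gap can be moved to the end. -/
lemma exists_rotation {l : List V} (hne : l ≠ []) (hpos : 0 < ringGaps G l) :
    ∃ (l' : List V) (hne' : l' ≠ []), l'.Perm l ∧ ringGaps G l' = ringGaps G l ∧
      ¬G.Adj (l'.getLast hne') (l'.head hne') := by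
  by_cases hseam : G.Adj (l.getLast hne) (l.head hne)
  swap
  · exact ⟨l, hne, List.Perm.refl _, rfl, hseam⟩
  have hsplit : ∀ m : List V, 0 < lineGaps G m → ∃ (a b : List V) (ha : a ≠ []) (hb : b ≠ []),
      m = a ++ b ∧ ¬G.Adj (a.getLast ha) (b.head hb) := by
    intro m
    induction m with
    | nil => simp [lineGaps]
    | cons x m ih =>
      cases m with
      | nil => simp [lineGaps]
      | cons y m =>
        intro h
        by_cases hxy : G.Adj x y
        · obtain ⟨a, b, ha, hb, he, hab⟩ := ih (by simpa [lineGaps, gap_of_adj hxy] using h)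
          exact ⟨x :: a, b, by simp, hb, by rw [he, List.cons_append],
            by rwa [List.getLast_cons ha]⟩
        · exact ⟨[x], y :: m, by simp, by simp, rfl, hxy⟩
  rw [ringGaps_eq hne, gap_of_adj hseam, add_zero] at hpos
  obtain ⟨a, b, ha, hb, rfl, hab⟩ := hsplit l hpos
  refine ⟨b ++ a, by simp [ha], List.perm_append_comm, ?_, ?_⟩
  · rw [ringGaps_eq (by simp [ha]), ringGaps_eq hne, lineGaps_append b a hb ha,
      lineGaps_append a b ha hb]
    simp [List.getLast_append_of_ne_nil, List.head_append_of_ne_nil, ha, hb]
    omega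
  · simpa [List.getLast_append_of_ne_nil, List.head_append_of_ne_nil, ha, hb] using hab

/-- Ore's theorem. -/
theorem ore_aux [Fintype V] [DecidableEq V] (hn : 3 ≤ Fintype.card V)
    (hore : ∀ u v, u ≠ v → ¬G.Adj u v →
      Fintype.card V ≤ (G.neighborFinset u).card + (G.neighborFinset v).card) :
    G.IsHamiltonian := by
  have hex : ∃ g, ∃ l : List V, l.Nodup ∧ l.length = Fintype.card V ∧ ringGaps G l = g :=
    ⟨_, (univ : Finset V).toList, Finset.nodup_toList _, by simp, rfl⟩
  obtain ⟨l, hnd, hlen, hg⟩ := Nat.find_spec hex
  have hne : l ≠ [] := by rw [← List.length_pos_iff]; omega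
  have h0 : ringGaps G l = 0 := by
    by_contra hpos
    obtain ⟨l', hne', hperm, he, hgap⟩ := exists_rotation hne (Nat.pos_of_ne_zero hpos)
    obtain ⟨m, hm1, hm2, hm3⟩ := exists_fewer_gaps hn hore l' (hperm.nodup_iff.2 hnd)
      (hperm.length_eq.trans hlen) hne' hgap
    have := Nat.find_min' hex ⟨m, hm1, hm2, rfl⟩
    omega
  rw [ringGaps_eq hne] at h0
  have hadj : G.Adj (l.getLast hne) (l.head hne) := by
    by_contra hn'
    simp [gap, hn'] at h0
  have hchain := isChain_of_lineGaps (G := G) (l := l) (by omega)
  intro _
  set p := SimpleGraph.Walk.ofSupport l hne hchain with hp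
  have hsupp : p.support = l := SimpleGraph.Walk.support_ofSupport hne hchain
  refine ⟨l.getLast hne, SimpleGraph.Walk.cons hadj p, ?_⟩
  rw [SimpleGraph.Walk.isHamiltonianCycle_iff_isCycle_and_length_eq]
  have hplen : p.length + 1 = Fintype.card V := by
    rw [← SimpleGraph.Walk.length_support, hsupp, hlen]
  refine ⟨SimpleGraph.Walk.isCycle_iff_isPath_tail_and_le_length.2 ⟨?_, ?_⟩, ?_⟩
  · rw [SimpleGraph.Walk.isPath_def,
      SimpleGraph.Walk.support_tail_of_not_nil _ SimpleGraph.Walk.not_nil_cons,
      SimpleGraph.Walk.support_cons, List.tail_cons, hsupp]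
    exact hnd
  · simp only [SimpleGraph.Walk.length_cons]; omega
  · simp only [SimpleGraph.Walk.length_cons]; omega

end FA.GraphClassics
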