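import Mathlib

/-!
# Vizing's theorem

The edges of a graph of largest degree at most `k` take `k + 1` colours (fans and Kempe chains).
-/

set_option autoImplicit false

noncomputable section

namespace FA.GraphClassics

open Finset Classical

variable {V : Type*}

/-- A proper colouring of the edges, given on pairs. -/
structure EdgeProper {K : Type*} (H : SimpleGraph V) (f : V → V → K) : Prop where
  sym : ∀ u v, f u v = f v u
  inj : ∀ u v w, H.Adj u v → H.Adj u w → f u v = f u w → v = w

/-- A colour not used at a point. -/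
def FreeColour {K : Type*} (H : SimpleGraph V) (f : V → V → K) (u : V) (a : K) : Prop :=
  ∀ v, H.Adj u v → f u v ≠ a

/-- A fan at `x` starting at `y 0`. -/
structure IsFan {K : Type*} (H : SimpleGraph V) (f : V → V → K) (x : V) (y : ℕ → V) (l : ℕ) :
    Prop where
  inj : ∀ i ≤ l, ∀ j ≤ l, y i = y j → i = j
  adj : ∀ i < l, H.Adj x (y (i + 1))
  free : ∀ i < l, FreeColour H f (y i) (f x (y (i + 1)))

/-- In a graph of degree at most two, three points of degree at most one are not connected. -/
lemma not_three_ends {D : SimpleGraph V}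
    (hdeg : ∀ u a b c, D.Adj u a → D.Adj u b → D.Adj u c → a = b ∨ a = c ∨ b = c)
    {a b c : V} (hab : a ≠ b) (hac : a ≠ c) (hbc : b ≠ c)
    (ha : ∀ u w, D.Adj a u → D.Adj a w → u = w) (hb : ∀ u w, D.Adj b u → D.Adj b w → u = w)
    (hc : ∀ u w, D.Adj c u → D.Adj c w → u = w)
    (h1 : D.Reachable a b) (h2 : D.Reachable a c) : False := by
  obtain ⟨p, hp⟩ := h1.exists_isPath
  obtain ⟨q, hq⟩ := h2.exists_isPath
  have main : ∀ {s t : V} (p : D.Walk a s) (q : D.Walk a t), p.IsPath → q.IsPath → a ≠ s →
      (∀ u w, D.Adj s u → D.Adj s w → u = w) → p.length ≤ q.length → s = t := by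
    intro s t p q hp hq has hs hle
    have hpre : ∀ i ≤ p.length, p.getVert i = q.getVert i := by
      intro i
      induction i using Nat.strong_induction_on with
      | _ i ih =>
        intro hi
        match i with
        | 0 => simp
        | 1 =>
          have e1 := p.adj_getVert_succ (i := 0) (by omega)
          have e2 := q.adj_getVert_succ (i := 0) (by omega)
          rw [SimpleGraph.Walk.getVert_zero] at e1 e2
          exact ha _ _ e1 e2
        | i + 2 =>
          have i1 := ih (i + 1) (by omega) (by omega)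
          have i0 := ih i (by omega) (by omega)
          have e1 := (p.adj_getVert_succ (i := i) (by omega)).symm
          have e2 := p.adj_getVert_succ (i := i + 1) (by omega)
          have e3 := q.adj_getVert_succ (i := i + 1) (by omega)
          rw [← i1] at e3
          rcases hdeg _ _ _ _ e1 e2 e3 with h | h | h
          · have := hp.getVert_injOn (by simp; omega) (by simp; omega) h; omega
          · rw [i0] at h
            have := hq.getVert_injOn (by simp; omega) (by simp; omega) h; omega
          · exact h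
    have hlast : q.getVert p.length = s := by rw [← hpre _ le_rfl, SimpleGraph.Walk.getVert_length]
    rcases eq_or_lt_of_le hle with he | hlt
    · rw [he, SimpleGraph.Walk.getVert_length] at hlast
      exact hlast.symm
    · exfalso
      have hp0 : 0 < p.length := Nat.pos_of_ne_zero fun h0 => has (by
        have h1 := p.getVert_length
        rw [h0, SimpleGraph.Walk.getVert_zero] at h1
        exact h1)
      obtain ⟨j, hj⟩ : ∃ j, p.length = j + 1 := ⟨p.length - 1, by omega⟩
      have e1 := (q.adj_getVert_succ (i := j) (by omega)).symm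
      have e2 := q.adj_getVert_succ (i := j + 1) (by omega)
      rw [hj] at hlast
      rw [hlast] at e1 e2
      have := hq.getVert_injOn (by simp; omega) (by simp; omega) (hs _ _ e1 e2)
      omega
  rcases le_total p.length q.length with h | h
  · exact hbc (main p q hp hq hab hb h)
  · exact hbc (main q p hq hp hac hc h).symm

variable {K : Type*} {H : SimpleGraph V} {f : V → V → K}

/-- Rotating a fan colours the new edge. -/
lemma rotate_fan (hf : EdgeProper H f) {x : V} {y : ℕ → V} {l : ℕ} (hfan : IsFan H f x y l)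
    (hxy : x ≠ y 0) (hnew : ¬H.Adj x (y 0)) {e : K} (hex : FreeColour H f x e)
    (hey : FreeColour H f (y l) e) :
    ∃ g : V → V → K, EdgeProper (H ⊔ SimpleGraph.edge x (y 0)) g := by
  let col : ℕ → K := fun i => if i < l then f x (y (i + 1)) else e
  let g1 : V → K := fun v => if h : ∃ i, i ≤ l ∧ y i = v then col (Nat.find h) else f x v
  let g : V → V → K := fun u v => if u = x then g1 v else if v = x then g1 u else f u v
  have hg1 : ∀ i ≤ l, g1 (y i) = col i := by
    intro i hi
    have h : ∃ j, j ≤ l ∧ y j = y i := ⟨i, hi, rfl⟩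
    simp only [g1, dif_pos h]
    obtain ⟨h1, h2⟩ := Nat.find_spec h
    rw [hfan.inj _ h1 _ hi h2]
  have hne : ∀ i ≤ l, y i ≠ x := by
    intro i hi
    cases i with
    | zero => exact hxy.symm
    | succ i => exact (hfan.adj i hi).ne'
  have hcol : ∀ i ≤ l, FreeColour H f (y i) (col i) := by
    intro i hi
    by_cases h : i < l
    · simp only [col, if_pos h]; exact hfan.free i h
    · simp only [col, if_neg h]
      rw [show i = l by omega]; exact hey
  have hcolx : ∀ i ≤ l, ∀ v, H.Adj x v → (∀ j ≤ l, y j ≠ v) → col i ≠ f x v := by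
    intro i hi v hv hout he
    by_cases h : i < l
    · simp only [col, if_pos h] at he
      exact hout (i + 1) h (hf.inj x _ v (hfan.adj i h) hv he)
    · simp only [col, if_neg h] at he
      exact hex v hv he.symm
  have hcolinj : ∀ i ≤ l, ∀ j ≤ l, col i = col j → i = j := by
    intro i hi j hj he
    by_cases h1 : i < l <;> by_cases h2 : j < l
    · simp only [col, if_pos h1, if_pos h2] at he
      have := hfan.inj (i + 1) h1 (j + 1) h2 (hf.inj x _ _ (hfan.adj i h1) (hfan.adj j h2) he)
      omega
    · simp only [col, if_pos h1, if_neg h2] at he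
      exact absurd he (hex _ (hfan.adj i h1))
    · simp only [col, if_neg h1, if_pos h2] at he
      exact absurd he.symm (hex _ (hfan.adj j h2))
    · omega
  have hout : ∀ v, ¬(∃ i, i ≤ l ∧ y i = v) → g1 v = f x v := fun v hv => dif_neg hv
  have hadjx : ∀ v, (H ⊔ SimpleGraph.edge x (y 0)).Adj x v →
      (∃ i, i ≤ l ∧ y i = v) ∨ H.Adj x v := by
    intro v hv
    rcases hv with hv | hv
    · exact Or.inr hv
    · simp only [SimpleGraph.edge_adj] at hv
      rcases hv.1 with h | h
      · exact Or.inl ⟨0, Nat.zero_le _, h.2.symm⟩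
      · exact absurd h.1 (hne 0 (Nat.zero_le _)).symm
  have hold : ∀ u v, u ≠ x → v ≠ x → (H ⊔ SimpleGraph.edge x (y 0)).Adj u v → H.Adj u v := by
    intro u v hu hv h
    rcases h with h | h
    · exact h
    · simp only [SimpleGraph.edge_adj] at h
      rcases h.1 with h1 | h1
      · exact absurd h1.1 hu
      · exact absurd h1.2 hv
  refine ⟨g, fun u v => ?_, fun u v w huv huw he => ?_⟩
  · simp only [g]
    by_cases hu : u = x <;> by_cases hv : v = x <;> simp [hu, hv]
    exact hf.sym u v
  · by_cases hu : u = x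
    · subst hu
      simp only [g, if_pos] at he
      by_cases hv : ∃ i, i ≤ l ∧ y i = v <;> by_cases hw : ∃ i, i ≤ l ∧ y i = w
      · obtain ⟨i, hi, rfl⟩ := hv
        obtain ⟨j, hj, rfl⟩ := hw
        rw [hg1 i hi, hg1 j hj] at he
        rw [hcolinj i hi j hj he]
      · obtain ⟨i, hi, rfl⟩ := hv
        rw [hg1 i hi, hout w hw] at he
        exact absurd he (hcolx i hi w ((hadjx w huw).resolve_left hw) fun j hj h => hw ⟨j, hj, h⟩)
      · obtain ⟨j, hj, rfl⟩ := hw
        rw [hg1 j hj, hout v hv] at he
        exact absurd he.symm (hcolx j hj v ((hadjx v huv).resolve_left hv) fun i hi h => hv ⟨i, hi, h⟩)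
      · rw [hout v hv, hout w hw] at he
        exact hf.inj _ v w ((hadjx v huv).resolve_left hv) ((hadjx w huw).resolve_left hw) he
    · -- away from the centre
      have hside : ∀ v w, (H ⊔ SimpleGraph.edge x (y 0)).Adj u v →
          (H ⊔ SimpleGraph.edge x (y 0)).Adj u w → v = x → w ≠ x → g u v ≠ g u w := by
        intro v w huv huw hv hw
        simp only [g, if_neg hu, if_pos hv, if_neg hw]
        have huw' := hold u w hu hw huw
        by_cases hin : ∃ i, i ≤ l ∧ y i = u
        · obtain ⟨i, hi, rfl⟩ := hin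
          rw [hg1 i hi]
          exact (hcol i hi w huw').symm
        · rw [hout u hin]
          subst hv
          have h1 : H.Adj v u := (hadjx u huv.symm).resolve_left hin
          rw [hf.sym v u]
          exact fun he => hw (hf.inj u v w h1.symm huw' he).symm
      by_cases hv : v = x <;> by_cases hw : w = x
      · rw [hv, hw]
      · exact absurd he (hside v w huv huw hv hw)
      · exact absurd he.symm (hside w v huw huv hw hv)
      · simp only [g, if_neg hu, if_neg hv, if_neg hw] at he
        exact hf.inj u v w (hold u v hu hv huv) (hold u w hu hw huw) he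

/-- The chains in two colours. -/
def kempe (H : SimpleGraph V) (f : V → V → K) (hsym : ∀ u v, f u v = f v u) (c d : K) :
    SimpleGraph V where
  Adj u v := H.Adj u v ∧ (f u v = c ∨ f u v = d)
  symm := ⟨fun u v h => ⟨h.1.symm, by rw [hsym v u]; exact h.2⟩⟩
  loopless := ⟨fun u h => h.1.ne rfl⟩

/-- One new edge can be coloured. -/
lemma extend_edge [Fintype V] [Fintype K] (hK : ∀ (H' : SimpleGraph V) u, H' ≤ H →
      (H'.neighborFinset u).card < Fintype.card K)
    (hf : EdgeProper H f) {x z : V} (hxz : x ≠ z) (hnew : ¬H.Adj x z) :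
    ∃ g : V → V → K, EdgeProper (H ⊔ SimpleGraph.edge x z) g := by
  have hfree : ∀ u, ∃ a, FreeColour H f u a := by
    intro u
    obtain ⟨a, -, ha⟩ := exists_mem_notMem_of_card_lt_card
      (s := (H.neighborFinset u).image (f u)) (t := (univ : Finset K)) (by
        rw [card_univ]
        exact lt_of_le_of_lt card_image_le (hK H u le_rfl))
    exact ⟨a, fun v hv he => ha (mem_image.2 ⟨v, (H.mem_neighborFinset _ _).2 hv, he⟩)⟩
  obtain ⟨c, hc⟩ := hfree x
  let P : ℕ → Prop := fun l => ∃ y : ℕ → V, y 0 = z ∧ IsFan H f x y l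
  have hP0 : P 0 := ⟨fun _ => z, rfl, fun i hi j hj _ => by omega, fun i hi => by omega,
    fun i hi => by omega⟩
  have hbound : ∀ l, P l → l ≤ Fintype.card V := by
    rintro l ⟨y, -, hy⟩
    have := card_le_univ ((range (l + 1)).image y)
    rw [card_image_of_injOn fun i hi j hj he => hy.inj i (Nat.lt_succ_iff.1 (mem_range.1 hi)) j
      (Nat.lt_succ_iff.1 (mem_range.1 hj)) he, card_range] at this
    omega
  set l := Nat.findGreatest P (Fintype.card V) with hl
  have hPl : P l := Nat.findGreatest_spec (Nat.zero_le _) hP0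
  obtain ⟨y, hy0, hy⟩ := hPl
  subst hy0
  obtain ⟨d, hd⟩ := hfree (y l)
  by_cases hdx : FreeColour H f x d
  · exact rotate_fan hf hy hxz hnew hdx hd
  simp only [FreeColour, not_forall, not_not] at hdx
  obtain ⟨w, hw, hwd⟩ := hdx
  obtain ⟨j, hj, hjw⟩ : ∃ j ≤ l, y j = w := by
    by_contra hcon
    push Not at hcon
    let y' : ℕ → V := fun i => if i ≤ l then y i else w
    have hP : P (l + 1) := by
      refine ⟨y', if_pos (Nat.zero_le _), ⟨fun i hi k hk he => ?_, fun i hi => ?_, fun i hi => ?_⟩⟩
      · by_cases h1 : i ≤ l <;> by_cases h2 : k ≤ l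
        · simp only [y', if_pos h1, if_pos h2] at he; exact hy.inj i h1 k h2 he
        · simp only [y', if_pos h1, if_neg h2] at he; exact absurd he (hcon i h1)
        · simp only [y', if_neg h1, if_pos h2] at he; exact absurd he.symm (hcon k h2)
        · omega
      · rcases Nat.lt_or_ge i l with h | h
        · simp only [y', if_pos (Nat.succ_le_of_lt h)]; exact hy.adj i h
        · simp only [y', if_neg (show ¬i + 1 ≤ l by omega)]; exact hw
      · rcases Nat.lt_or_ge i l with h | h
        · simp only [y', if_pos h.le, if_pos (Nat.succ_le_of_lt h)]; exact hy.free i h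
        · obtain rfl : i = l := by omega
          simp only [y', if_pos le_rfl, if_neg (show ¬l + 1 ≤ l by omega), hwd]
          exact hd
    exact absurd (Nat.le_findGreatest (hbound _ hP) hP) (by omega)
  have hcd : c ≠ d := fun he => hc w hw (hwd.trans he.symm)
  have hj0 : j ≠ 0 := fun h0 => hnew (by rw [← h0, hjw]; exact hw)
  obtain ⟨i0, rfl⟩ : ∃ i0, j = i0 + 1 := ⟨j - 1, by omega⟩
  have hi0 : i0 < l := hj
  set u0 := y i0 with hu0
  have hu0d : FreeColour H f u0 d := by
    have := hy.free i0 hi0
    rwa [hjw, hwd] at this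
  have hu0l : u0 ≠ y l := fun he => by have := hy.inj i0 hi0.le l le_rfl he; omega
  set D := kempe H f hf.sym c d with hD
  have hdeg : ∀ u a b e, D.Adj u a → D.Adj u b → D.Adj u e → a = b ∨ a = e ∨ b = e := by
    intro u a b e ha hb he
    rcases ha.2 with h1 | h1 <;> rcases hb.2 with h2 | h2 <;> rcases he.2 with h3 | h3
    all_goals first
      | exact Or.inl (hf.inj u a b ha.1 hb.1 (h1.trans h2.symm))
      | exact Or.inr (Or.inl (hf.inj u a e ha.1 he.1 (h1.trans h3.symm)))
      | exact Or.inr (Or.inr (hf.inj u b e hb.1 he.1 (h2.trans h3.symm)))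
  have hend : ∀ u, (FreeColour H f u c ∨ FreeColour H f u d) →
      ∀ a b, D.Adj u a → D.Adj u b → a = b := by
    intro u hu a b ha hb
    rcases hu with hu | hu
    · exact hf.inj u a b ha.1 hb.1
        ((ha.2.resolve_left (hu a ha.1)).trans (hb.2.resolve_left (hu b hb.1)).symm)
    · exact hf.inj u a b ha.1 hb.1
        ((ha.2.resolve_right (hu a ha.1)).trans (hb.2.resolve_right (hu b hb.1)).symm)
  have hxu0 : x ≠ u0 := by
    intro he
    cases i0 with
    | zero => exact hxz he
    | succ i => exact (hy.adj i (by omega)).ne he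
  have hxl : x ≠ y l := by
    intro he
    obtain ⟨i, hi⟩ : ∃ i, l = i + 1 := ⟨l - 1, by omega⟩
    rw [hi] at he
    exact (hy.adj i (by omega)).ne he
  -- a point with `d` free outside the chain of `x`
  obtain ⟨m, hm, hmd, hmx, hmfan⟩ : ∃ m ≤ l, FreeColour H f (y m) d ∧ ¬D.Reachable (y m) x ∧
      (i0 < m → ¬D.Reachable (y m) u0) := by
    by_cases h1 : D.Reachable u0 x
    · have h2 : ¬D.Reachable (y l) x := fun h2 =>
        not_three_ends hdeg hxu0 hxl hu0l (hend x (Or.inl hc)) (hend u0 (Or.inr hu0d))
          (hend (y l) (Or.inr hd)) h1.symm h2.symm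
      exact ⟨l, le_rfl, hd, h2, fun _ h3 => h2 (h3.trans h1)⟩
    · exact ⟨i0, hi0.le, hu0d, h1, fun h => absurd h (lt_irrefl _)⟩
  set p := y m with hp
  let f' : V → V → K := fun u v =>
    if D.Reachable p u ∨ D.Reachable p v then Equiv.swap c d (f u v) else f u v
  have hchar : ∀ u v, H.Adj u v →
      f' u v = if D.Reachable p u then Equiv.swap c d (f u v) else f u v := by
    intro u v huv
    simp only [f']
    by_cases h1 : D.Reachable p u
    · simp [h1]
    · by_cases h2 : D.Reachable p v
      · rw [if_pos (Or.inr h2), if_neg h1]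
        refine Equiv.swap_apply_of_ne_of_ne (fun h => h1 ?_) (fun h => h1 ?_)
        · exact h2.trans (show D.Adj v u from ⟨huv.symm, Or.inl (by rw [hf.sym v u, h])⟩).reachable
        · exact h2.trans (show D.Adj v u from ⟨huv.symm, Or.inr (by rw [hf.sym v u, h])⟩).reachable
      · simp [h1, h2]
  have hf' : EdgeProper H f' := by
    refine ⟨fun u v => ?_, fun u v w huv huw he => ?_⟩
    · simp only [f', hf.sym u v, or_comm]
    · rw [hchar u v huv, hchar u w huw] at he
      refine hf.inj u v w huv huw ?_
      split_ifs at he with h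
      · exact (Equiv.swap c d).injective he
      · exact he
  have hx' : ¬D.Reachable p x := hmx
  have hfx : ∀ v, H.Adj x v → f' x v = f x v := fun v hv => by rw [hchar x v hv, if_neg hx']
  have hfree' : ∀ u a, FreeColour H f u a →
      (¬D.Reachable p u ∨ (a ≠ c ∧ a ≠ d)) → FreeColour H f' u a := by
    intro u a ha h v hv
    rw [hchar u v hv]
    split_ifs with hr
    · obtain ⟨h1, h2⟩ := h.resolve_left (not_not.2 hr)
      intro he
      have h3 := congrArg (Equiv.swap c d) he
      rw [Equiv.swap_apply_self, Equiv.swap_apply_of_ne_of_ne h1 h2] at h3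
      exact ha v hv h3
    · exact ha v hv
  have hfan' : IsFan H f' x y m := by
    refine ⟨fun i hi k hk => hy.inj i (hi.trans hm) k (hk.trans hm), fun i hi => hy.adj i (by omega),
      fun i hi => ?_⟩
    rw [hfx _ (hy.adj i (by omega))]
    refine hfree' _ _ (hy.free i (by omega)) ?_
    by_cases hid : f x (y (i + 1)) = d
    · have h1 : y (i + 1) = w := hf.inj x _ _ (hy.adj i (by omega)) hw (hid.trans hwd.symm)
      have h2 := hy.inj (i + 1) (by omega) (i0 + 1) hj (h1.trans hjw.symm)
      obtain rfl : i = i0 := by omega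
      exact Or.inl (hmfan hi)
    · exact Or.inr ⟨hc _ (hy.adj i (by omega)), hid⟩
  have hcp : FreeColour H f' p c := by
    intro v hv
    rw [hchar p v hv, if_pos (SimpleGraph.Reachable.refl p)]
    intro he
    have h3 := congrArg (Equiv.swap c d) he
    rw [Equiv.swap_apply_self, Equiv.swap_apply_left] at h3
    exact hmd v hv h3
  exact rotate_fan hf' hfan' hxz hnew (hfree' x c hc (Or.inl hx')) hcp

/-- Vizing's theorem. -/
theorem vizing_aux [Fintype V] (G : SimpleGraph V) (k : ℕ)
    (hk : ∀ v, (G.neighborFinset v).card ≤ k) : ∃ f : V → V → Fin (k + 1), EdgeProper G f := by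
  suffices h : ∀ (n : ℕ) (H : SimpleGraph V), H ≤ G → H.edgeFinset.card = n →
      ∃ f : V → V → Fin (k + 1), EdgeProper H f from h _ G le_rfl rfl
  intro n
  induction n using Nat.strong_induction_on with
  | _ n ih =>
    intro H hH hn
    by_cases hE : ∃ x z, H.Adj x z
    swap
    · exact ⟨fun _ _ => 0, fun _ _ => rfl, fun u v w huv => absurd ⟨u, v, huv⟩ hE⟩
    obtain ⟨x, z, hxz⟩ := hE
    set H' := H.deleteEdges {s(x, z)} with hH'
    have hlt : H'.edgeFinset.card < n := by
      rw [← hn]
      refine card_lt_card ⟨SimpleGraph.edgeFinset_mono (SimpleGraph.deleteEdges_le _), fun hsub => ?_⟩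
      have h1 := SimpleGraph.mem_edgeFinset.1 (hsub (SimpleGraph.mem_edgeFinset.2 (show s(x, z) ∈ H.edgeSet from hxz)))
      simp [hH'] at h1
    have hle : H' ≤ G := le_trans (SimpleGraph.deleteEdges_le _) hH
    obtain ⟨f, hf⟩ := ih _ hlt H' hle (by convert rfl)
    obtain ⟨g, hg⟩ := extend_edge (fun H'' u h'' => by
      rw [Fintype.card_fin]
      refine Nat.lt_succ_of_le (le_trans (card_le_card fun v hv => ?_) (hk u))
      exact (G.mem_neighborFinset _ _).2 (hle (h'' ((H''.mem_neighborFinset _ _).1 hv))))
      hf hxz.ne (x := x) (z := z) (by simp [hH'])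
    have hadd : ∀ a b, H.Adj a b → (H' ⊔ SimpleGraph.edge x z).Adj a b := by
      intro a b h
      by_cases he : s(a, b) = s(x, z)
      · right; rw [SimpleGraph.edge_adj]; exact ⟨Sym2.eq_iff.1 he, h.ne⟩
      · left; exact SimpleGraph.deleteEdges_adj.2 ⟨h, he⟩
    exact ⟨g, hg.sym, fun u v w huv huw => hg.inj u v w (hadd _ _ huv) (hadd _ _ huw)⟩

end FA.GraphClassics
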